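/-
Cluster G (S36, Carayol at `q² ∥ M`), seat VERT-0, part 2 (helper68): `v_0` at a level `M = Q R`
(`valSetupZeroAt`, the `wAt` form used by NORM / BR) and the RESTRICTION of `v_∞`, `v_0` from
`F = F_{N ℓ}` to `F₁ = F_N` along the two degeneracy maps `α = heckeAlphaBar` (inclusion, `π₁^*`)
and `β = heckeBetaBar` (`x(t) ↦ x(t^ℓ)`, `π₂^*`).

`S₁`, `S₂` ANY Gauss setups at the levels `N`, `N ℓ` (`IsGaussSetup`), `v_0 = valSetupZeroAt`:

* `valSetupZeroAt`, `mem_valSetupZeroAt_Ov`, `valSetupZeroAt_red`, `hasLattice_valSetupZeroAt`,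
  `valSetupZeroAt_rfl` (`= valSetupZero` at the level `D.Q * D.R`), `not_le_valSetupZeroAt`;
* (a) `alpha_mem_Ov_iff`, `coe_red_alpha`       : `v_∞ ∘ α = v_∞`, residue map `= id` (`f = 1`);
* (b) `beta_mem_Ov_iff`, `coe_red_beta`         : `v_∞ ∘ β = v_∞`, residue map `x ↦ x(t^ℓ)`
                                                  (purely inseparable of degree `ℓ`);
* (c) `alpha_mem_zeroAt_iff`, `coe_red_zeroAt_alpha` : `v_0 ∘ α = v_0`, residue map `x ↦ x(t^ℓ)`;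
* (d) `beta_mem_zeroAt_iff`, `coe_red_zeroAt_beta`   : `v_0 ∘ β = v_0`, residue map `= id`.
These are the fields `mem_iff`, `red_map` of `S36.MultiNormSetup` / `normRed` for the vertical
valuations.
* `exists_vertPair_sq` : the PAIR `(v_∞, v_0)` at the level `M = q² R` (on helper28's `Inf2`):
  Gauss setup, both lattices, incomparable.   Sorry-free.
-/
import Mathlib
import Fermat.Agent.S36.Val.Zero2
import Fermat.Agent.S36.Norm.VertW
import Fermat.Agent.S36.Val.Inf2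

set_option autoImplicit false
set_option linter.style.haveILetI false
set_option synthInstance.maxHeartbeats 400000

noncomputable section
attribute [local instance 10000] SubalgebraClass.toAlgebra HahnSeries.powerSeriesAlgebra

namespace Fermat.Agent.S36G

open ModularCurve AlgebraicCurve Fermat.Agent.F3 Fermat.Agent.F3G Fermat.Agent.GaussInt
  Fermat.Agent.AtkinLehner Fermat.Agent.BadRed Fermat.Agent.Deuring Fermat.Agent.Kronecker
  Fermat.Agent.S36N

local notation "Qb" => AlgebraicClosure ℚ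

/-- shortcut (the instance found by unification is the same term, after a slow search). -/
local instance (priority := 10000) restrAlgFullC (A : ValuationSubring Qb) (N : ℕ) :
    Algebra (IsLocalRing.ResidueField A)
      (modularFunctionFieldFullC (IsLocalRing.ResidueField A) N) :=
  SubalgebraClass.toAlgebra (modularFunctionFieldFullC (IsLocalRing.ResidueField A) N)

/-! ### `v_0` at a level `M = Q R` -/

section ZeroAt

variable {k Fk : Type*} [Field k] [Field Fk] [Algebra k Fk]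
  (D : ALData) {M : ℕ} (hM : M = D.Q * D.R) (S : ValSetup Qb (FBar M) k Fk)

/-- the constant reduction `v_0 = v_∞ ∘ w_Q` at a level `M = Q R`. -/
def valSetupZeroAt : ValSetup Qb (FBar M) k Fk :=
  comapEquiv S (wAt D hM)

theorem valSetupZeroAt_A : (valSetupZeroAt D hM S).A = S.A :=
  comapEquiv_A S (wAt D hM)

theorem mem_valSetupZeroAt_Ov (f : FBar M) :
    f ∈ (valSetupZeroAt D hM S).Ov ↔ wAt D hM f ∈ S.Ov :=
  mem_comapEquiv_Ov S (wAt D hM) f

theorem valSetupZeroAt_red (f : FBar M) :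
    (valSetupZeroAt D hM S).red f = S.red (wAt D hM f) :=
  comapEquiv_red S (wAt D hM) f

theorem hasLattice_valSetupZeroAt (hL : HasLattice S) : HasLattice (valSetupZeroAt D hM S) :=
  hasLattice_comapEquiv S (wAt D hM) hL

/-- `w_Q` exchanges the two reductions. -/
theorem valSetupZeroAt_red_wAt (f : FBar M) :
    (valSetupZeroAt D hM S).red (wAt D hM f) = S.red f := by
  rw [valSetupZeroAt_red, wAt_wAt]

theorem mem_valSetupZeroAt_Ov_wAt (f : FBar M) :
    wAt D hM f ∈ (valSetupZeroAt D hM S).Ov ↔ f ∈ S.Ov := by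
  rw [mem_valSetupZeroAt_Ov, wAt_wAt]

/-- at the level `D.Q * D.R` this is T's `valSetupZero`. -/
theorem valSetupZeroAt_rfl (S : ValSetup Qb (FBar (D.Q * D.R)) k Fk) :
    valSetupZeroAt D rfl S = valSetupZero D S := by
  unfold valSetupZeroAt valSetupZero
  rw [wAt_eq_rfl]

end ZeroAt

section Incomp

variable (D : ALData) {q e : ℕ} (hq : q.Prime) (he : 0 < e) (hQ : D.Q = q ^ e)
  (A : ValuationSubring Qb) (hA : A.LiesOverPrime q)
  {M N₀ : ℕ} [NeZero M] [NeZero N₀] (hM : M = D.Q * D.R)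
  (S : ValSetup Qb (FBar M) (IsLocalRing.ResidueField A)
    (modularFunctionFieldFullC (IsLocalRing.ResidueField A) N₀))

include hq he hQ hA in
/-- **VERT-0, incomparability at a level `M = q^e R`**. -/
theorem not_le_valSetupZeroAt (hS : IsGaussSetup M N₀ A S) :
    ¬ S.Ov ≤ (valSetupZeroAt D hM S).Ov ∧ ¬ (valSetupZeroAt D hM S).Ov ≤ S.Ov := by
  subst hM
  rw [valSetupZeroAt_rfl]
  exact not_le_valSetupZero_pow D hq he hQ A hA S hS

end Incomp

/-! ### an abstract restriction lemma -/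

/-- if `φ : F₁ → F₂` maps `O₁` into `O₂` and the maximal ideal into the maximal ideal, then
`O₂ ∩ F₁ = O₁`. -/
theorem mem_Ov_iff_of_restr {K F₁ F₂ k Fk₁ Fk₂ : Type*} [Field K] [Field F₁] [Algebra K F₁]
    [Field F₂] [Algebra K F₂] [Field k] [Field Fk₁] [Algebra k Fk₁] [Field Fk₂] [Algebra k Fk₂]
    (S₁ : ValSetup K F₁ k Fk₁) (S₂ : ValSetup K F₂ k Fk₂) (φ : F₁ →ₐ[K] F₂)
    (h1 : ∀ x, x ∈ S₁.Ov → φ x ∈ S₂.Ov)
    (h2 : ∀ x, x ∈ S₁.Ov → S₁.red x = 0 → S₂.red (φ x) = 0) (x : F₁) :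
    φ x ∈ S₂.Ov ↔ x ∈ S₁.Ov := by
  refine ⟨fun h => ?_, h1 x⟩
  by_contra hx
  have hx0 : x ≠ 0 := fun h0 => hx (h0 ▸ zero_mem _)
  have hinv : x⁻¹ ∈ S₁.Ov := (S₁.Ov.mem_or_inv_mem x).resolve_left hx
  have hr : S₁.red x⁻¹ = 0 :=
    (S₁.red_eq_zero_iff hinv (inv_ne_zero hx0)).mpr (by rwa [inv_inv])
  have hφ0 : φ x ≠ 0 := (map_ne_zero φ).mpr hx0
  have h3 := h2 _ hinv hr
  rw [map_inv₀] at h3
  have h4 : (φ x)⁻¹ ∈ S₂.Ov := by
    have := h1 _ hinv
    rwa [map_inv₀] at this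
  exact (S₂.red_ne_zero h4 (by rwa [inv_inv]) (inv_ne_zero hφ0)) h3

/-! ### restriction of `v_∞` and `v_0` along `α` and `β` -/

section Restr

variable {N ℓ : ℕ} [NeZero N] [NeZero ℓ] (A : ValuationSubring Qb)
  {N₁ N₂ : ℕ} [NeZero N₁] [NeZero N₂]
  (S₁ : ValSetup Qb (FBar N) (IsLocalRing.ResidueField A)
    (modularFunctionFieldFullC (IsLocalRing.ResidueField A) N₁))
  (S₂ : ValSetup Qb (FBar (N * ℓ)) (IsLocalRing.ResidueField A)
    (modularFunctionFieldFullC (IsLocalRing.ResidueField A) N₂))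
  (hS₁ : IsGaussSetup N N₁ A S₁) (hS₂ : IsGaussSetup (N * ℓ) N₂ A S₂)

theorem le_level_mul_right (N ℓ : ℕ) [NeZero N] [NeZero ℓ] :
    modularFunctionFieldBar N ≤ modularFunctionFieldBar (N * ℓ) := by
  intro x hx
  have h := (heckeAlphaBar Qb N ℓ ⟨x, hx⟩).2
  rwa [coe_heckeAlphaBar] at h

theorem qExpand_mem_level_mul_right (N ℓ : ℕ) [NeZero N] [NeZero ℓ] (x : LaurentSeries Qb)
    (hx : x ∈ modularFunctionFieldBar N) :
    qExpand Qb ℓ x ∈ modularFunctionFieldBar (N * ℓ) := by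
  have h := (heckeBetaBar Qb N ℓ ⟨x, hx⟩).2
  rwa [coe_heckeBetaBar] at h

include hS₁ hS₂ in
/-- (a), easy direction. -/
theorem alpha_mem_Ov {x : FBar N} (hx : x ∈ S₁.Ov) : heckeAlphaBar Qb N ℓ x ∈ S₂.Ov := by
  rw [hS₂.mem_iff, coe_heckeAlphaBar]
  exact gaussSub_mono_field (le_level_mul_right N ℓ) ((hS₁.mem_iff x).mp hx)

include hS₁ hS₂ in
/-- (a) the residue map of `v_∞` along `α` is the identity (on expansions). -/
theorem coe_red_alpha {x : FBar N} (hx : x ∈ S₁.Ov) :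
    ((S₂.red (heckeAlphaBar Qb N ℓ x) :
        modularFunctionFieldFullC (IsLocalRing.ResidueField A) N₂) :
        LaurentSeries (IsLocalRing.ResidueField A)) =
      ((S₁.red x : modularFunctionFieldFullC (IsLocalRing.ResidueField A) N₁) :
        LaurentSeries (IsLocalRing.ResidueField A)) := by
  rw [hS₂.coe_red _ (alpha_mem_Ov A S₁ S₂ hS₁ hS₂ hx), coe_heckeAlphaBar,
    gaussResFun_eq_of_le (le_level_mul_right N ℓ) ((hS₁.mem_iff x).mp hx), hS₁.coe_red x hx]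

include hS₁ hS₂ in
/-- (a) `v_∞` of `F_{Nℓ}` restricts to `v_∞` of `F_N` along `α`. -/
theorem alpha_mem_Ov_iff (x : FBar N) : heckeAlphaBar Qb N ℓ x ∈ S₂.Ov ↔ x ∈ S₁.Ov := by
  refine mem_Ov_iff_of_restr S₁ S₂ (heckeAlphaBar Qb N ℓ)
    (fun y hy => alpha_mem_Ov A S₁ S₂ hS₁ hS₂ hy) (fun y hy h0 => ?_) x
  apply Subtype.ext
  have h := coe_red_alpha A S₁ S₂ hS₁ hS₂ hy
  rw [h0] at h
  rw [h, ZeroMemClass.coe_zero, ZeroMemClass.coe_zero]

include hS₁ hS₂ in
/-- (b), easy direction. -/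
theorem beta_mem_Ov {x : FBar N} (hx : x ∈ S₁.Ov) : heckeBetaBar Qb N ℓ x ∈ S₂.Ov := by
  rw [hS₂.mem_iff, coe_heckeBetaBar]
  exact qExpand_mem_gaussSub ℓ (qExpand_mem_level_mul_right N ℓ) ((hS₁.mem_iff x).mp hx)

include hS₁ hS₂ in
/-- (b) the residue map of `v_∞` along `β` is `x(t) ↦ x(t^ℓ)`. -/
theorem coe_red_beta {x : FBar N} (hx : x ∈ S₁.Ov) :
    ((S₂.red (heckeBetaBar Qb N ℓ x) :
        modularFunctionFieldFullC (IsLocalRing.ResidueField A) N₂) :
        LaurentSeries (IsLocalRing.ResidueField A)) =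
      qExpand (IsLocalRing.ResidueField A) ℓ
        ((S₁.red x : modularFunctionFieldFullC (IsLocalRing.ResidueField A) N₁) :
          LaurentSeries (IsLocalRing.ResidueField A)) := by
  rw [hS₂.coe_red _ (beta_mem_Ov A S₁ S₂ hS₁ hS₂ hx), coe_heckeBetaBar,
    gaussResFun_qExpand ℓ (qExpand_mem_level_mul_right N ℓ) ((hS₁.mem_iff x).mp hx),
    hS₁.coe_red x hx]

include hS₁ hS₂ in
/-- (b) `v_∞` of `F_{Nℓ}` restricts to `v_∞` of `F_N` along `β`. -/
theorem beta_mem_Ov_iff (x : FBar N) : heckeBetaBar Qb N ℓ x ∈ S₂.Ov ↔ x ∈ S₁.Ov := by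
  refine mem_Ov_iff_of_restr S₁ S₂ (heckeBetaBar Qb N ℓ)
    (fun y hy => beta_mem_Ov A S₁ S₂ hS₁ hS₂ hy) (fun y hy h0 => ?_) x
  apply Subtype.ext
  have h := coe_red_beta A S₁ S₂ hS₁ hS₂ hy
  rw [h0] at h
  rw [h, ZeroMemClass.coe_zero, map_zero, ZeroMemClass.coe_zero]

variable (D₁ D₂ : ALData) (hQ : D₂.Q = D₁.Q * ℓ) (hR : D₂.R = D₁.R)
  (hN : N = D₁.Q * D₁.R) (hNℓ : N * ℓ = D₂.Q * D₂.R)

include hS₁ hS₂ hQ hR in
/-- (c) `v_0` of `F_{Nℓ}` restricts to `v_0` of `F_N` along `α`. -/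
theorem alpha_mem_zeroAt_iff (x : FBar N) :
    heckeAlphaBar Qb N ℓ x ∈ (valSetupZeroAt D₂ hNℓ S₂).Ov ↔
      x ∈ (valSetupZeroAt D₁ hN S₁).Ov := by
  rw [mem_valSetupZeroAt_Ov, mem_valSetupZeroAt_Ov, wAt_alpha D₁ D₂ hQ hR hN hNℓ,
    beta_mem_Ov_iff A S₁ S₂ hS₁ hS₂]

include hS₁ hS₂ hQ hR in
/-- (c) the residue map of `v_0` along `α` is `x(t) ↦ x(t^ℓ)` (purely inseparable). -/
theorem coe_red_zeroAt_alpha {x : FBar N} (hx : x ∈ (valSetupZeroAt D₁ hN S₁).Ov) :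
    (((valSetupZeroAt D₂ hNℓ S₂).red (heckeAlphaBar Qb N ℓ x) :
        modularFunctionFieldFullC (IsLocalRing.ResidueField A) N₂) :
        LaurentSeries (IsLocalRing.ResidueField A)) =
      qExpand (IsLocalRing.ResidueField A) ℓ
        (((valSetupZeroAt D₁ hN S₁).red x :
          modularFunctionFieldFullC (IsLocalRing.ResidueField A) N₁) :
          LaurentSeries (IsLocalRing.ResidueField A)) := by
  rw [mem_valSetupZeroAt_Ov] at hx
  rw [valSetupZeroAt_red, valSetupZeroAt_red, wAt_alpha D₁ D₂ hQ hR hN hNℓ,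
    coe_red_beta A S₁ S₂ hS₁ hS₂ hx]

include hS₁ hS₂ hQ hR in
/-- (d) `v_0` of `F_{Nℓ}` restricts to `v_0` of `F_N` along `β`. -/
theorem beta_mem_zeroAt_iff (x : FBar N) :
    heckeBetaBar Qb N ℓ x ∈ (valSetupZeroAt D₂ hNℓ S₂).Ov ↔
      x ∈ (valSetupZeroAt D₁ hN S₁).Ov := by
  rw [mem_valSetupZeroAt_Ov, mem_valSetupZeroAt_Ov, wAt_beta D₁ D₂ hQ hR hN hNℓ,
    alpha_mem_Ov_iff A S₁ S₂ hS₁ hS₂]

include hS₁ hS₂ hQ hR in
/-- (d) the residue map of `v_0` along `β` is the identity (on expansions). -/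
theorem coe_red_zeroAt_beta {x : FBar N} (hx : x ∈ (valSetupZeroAt D₁ hN S₁).Ov) :
    (((valSetupZeroAt D₂ hNℓ S₂).red (heckeBetaBar Qb N ℓ x) :
        modularFunctionFieldFullC (IsLocalRing.ResidueField A) N₂) :
        LaurentSeries (IsLocalRing.ResidueField A)) =
      (((valSetupZeroAt D₁ hN S₁).red x :
          modularFunctionFieldFullC (IsLocalRing.ResidueField A) N₁) :
          LaurentSeries (IsLocalRing.ResidueField A)) := by
  rw [mem_valSetupZeroAt_Ov] at hx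
  rw [valSetupZeroAt_red, valSetupZeroAt_red, wAt_beta D₁ D₂ hQ hR hN hNℓ,
    coe_red_alpha A S₁ S₂ hS₁ hS₂ hx]

end Restr

/-! ### the pair `(v_∞, v_0)` at the level `q² R` -/

section Pair

variable {q : ℕ} (hq : q.Prime) (D : ALData) (hQ : D.Q = q ^ 2) (hqR : ¬ q ∣ D.R)
  (A : ValuationSubring Qb) (hA : A.LiesOverPrime q) {M : ℕ} [NeZero M] (hM : M = D.Q * D.R)

include hq hQ hqR hA in
/-- **VERT-OO + VERT-0**: the two vertical constant reductions `v_∞`, `v_0 = v_∞ ∘ w_{q²}` of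
`F_{q² R}` at a place over `q`, both with residue function field `F_k(R)` and the lattice
property, incomparable. -/
theorem exists_vertPair_sq [NeZero D.R] :
    ∃ S : ValSetup Qb (FBar M) (IsLocalRing.ResidueField A)
        (modularFunctionFieldFullC (IsLocalRing.ResidueField A) D.R),
      IsGaussSetup M D.R A S ∧ HasLattice S ∧ HasLattice (valSetupZeroAt D hM S) ∧
        ¬ S.Ov ≤ (valSetupZeroAt D hM S).Ov ∧ ¬ (valSetupZeroAt D hM S).Ov ≤ S.Ov := by
  haveI : NeZero q := ⟨hq.ne_zero⟩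
  obtain ⟨S, hS, hL⟩ := exists_isGaussSetup_sq (N := D.R) (ℓ := q) hq hqR A hA M
    (by rw [hM, hQ])
  have h := not_le_valSetupZeroAt D hq (by norm_num : 0 < 2) hQ A hA hM S hS
  exact ⟨S, hS, hL, hasLattice_valSetupZeroAt D hM S hL, h.1, h.2⟩

end Pair

end Fermat.Agent.S36G
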