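/-
Cluster G (S36, Carayol at `q² ∥ M`), seat VERT-INDEP (helper68): the field `indep` of
`BadRedG.GraphCore` for the VERTICAL vertices `v_∞`, `v_0`, `v_z` (middle) of `F = F_{M₀ q q}`.

* `ov_le_of_ov_le`            : ABSTRACT: two constant reductions over the same valuation ring of
                                 the constants are equal as soon as they are comparable
                                 (so `¬ O ≤ O'` is symmetric: it is `O ≠ O'`);
* `not_le_zeroAt_mid`, `not_le_mid_zeroAt` : `v_0 = v_∞ ∘ w_{q²}` and a middle valuation `v_z`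
                                 are incomparable  (restriction to `F₁ = F_{M₀ q}` along `α`:
                                 `v_z ∩ F₁ = v_∞¹` (helper33's `ig_alpha_mem_expOv_iff`),
                                 `v_0 ∩ F₁ = v_0¹` (`alpha_mem_zeroAt_iff`), and
                                 `v_∞¹`, `v_0¹` are incomparable);
* `not_le_inf_mid`, `not_le_mid_inf`       : `v_∞` and `v_z` are incomparable (helper91's
                                 `igMidNeInf`);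
* `not_le_mid_mid`            : `v_z`, `v_{z^a}` are incomparable for a non-square `a`
                                 (from `IgMidDistinct`).
`Sz` is ANY constant reduction with `Sz.A = A` and valuation ring `expOv ε A` (`IsMidSetup`).
Sorry-free.
-/
import Mathlib
import Fermat.Agent.S36.Val.Restr
import Fermat.Agent.S36.Igusa.Lies
import Fermat.Agent.S36.Igusa.Theta
import Fermat.Agent.Lib.BadRed.ModFacts

set_option autoImplicit false
set_option linter.style.haveILetI false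
set_option synthInstance.maxHeartbeats 400000

noncomputable section
attribute [local instance 10000] SubalgebraClass.toAlgebra HahnSeries.powerSeriesAlgebra

namespace Fermat.Agent.S36G

open ModularCurve AlgebraicCurve Fermat.Agent.F3 Fermat.Agent.F3G Fermat.Agent.GaussInt
  Fermat.Agent.AtkinLehner Fermat.Agent.BadRed Fermat.Agent.Deuring Fermat.Agent.Kronecker
  Fermat.Agent.S36N

local notation "Qb" => AlgebraicClosure ℚ

/-- shortcut (the instance found by unification is the same term, after a slow search). -/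
local instance (priority := 10000) vertIndepAlgFullC (A : ValuationSubring Qb) (N : ℕ) :
    Algebra (IsLocalRing.ResidueField A)
      (modularFunctionFieldFullC (IsLocalRing.ResidueField A) N) :=
  SubalgebraClass.toAlgebra (modularFunctionFieldFullC (IsLocalRing.ResidueField A) N)

/-! ### abstract: comparable constant reductions are equal -/

/-- two constant reductions of `F / K` over the same valuation ring of `K`: `O ≤ O'` implies
`O' ≤ O`. -/
theorem ov_le_of_ov_le {K F k Fk Fk' : Type*} [Field K] [Field F] [Algebra K F] [Field k]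
    [Field Fk] [Algebra k Fk] [Field Fk'] [Algebra k Fk']
    (S : ValSetup K F k Fk) (S' : ValSetup K F k Fk') (hA : S.A = S'.A)
    (h : S.Ov ≤ S'.Ov) : S'.Ov ≤ S.Ov := by
  intro f hf
  rcases eq_or_ne f 0 with rfl | hf0
  · exact zero_mem _
  obtain ⟨c, hc, h1, h2⟩ := S.scale f hf0
  have hc0 : algebraMap K F c ≠ 0 := (map_ne_zero (algebraMap K F)).mpr hc
  have h3 : algebraMap K F c = f * (f * (algebraMap K F c)⁻¹)⁻¹ := by
    rw [mul_inv, inv_inv, ← mul_assoc, mul_inv_cancel₀ hf0, one_mul]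
  have h4 : algebraMap K F c ∈ S'.Ov := by
    rw [h3]
    exact mul_mem hf (h h2)
  have h5 : c ∈ S.A := by
    rw [hA]
    exact (S'.mem_Ov_iff c).mp h4
  have h6 : f = f * (algebraMap K F c)⁻¹ * algebraMap K F c := by
    rw [mul_assoc, inv_mul_cancel₀ hc0, mul_one]
  rw [h6]
  exact mul_mem h1 ((S.mem_Ov_iff c).mpr h5)

theorem not_ov_le_symm {K F k Fk Fk' : Type*} [Field K] [Field F] [Algebra K F] [Field k]
    [Field Fk] [Algebra k Fk] [Field Fk'] [Algebra k Fk']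
    (S : ValSetup K F k Fk) (S' : ValSetup K F k Fk') (hA : S.A = S'.A)
    (h : ¬ S.Ov ≤ S'.Ov) : ¬ S'.Ov ≤ S.Ov := fun h' =>
  h (ov_le_of_ov_le S' S hA.symm h')

/-! ### the vertical vertices of `F_{M₀ q q}` -/

section Vert

variable {M₀ q : ℕ} [NeZero M₀] [NeZero q] (hq : q.Prime) (hqM : ¬ q ∣ M₀)
  (A : ValuationSubring Qb) (hA : A.LiesOverPrime q)
  {N₂ : ℕ} [NeZero N₂]
  (S₂ : ValSetup Qb (FBar (M₀ * q * q)) (IsLocalRing.ResidueField A)
    (modularFunctionFieldFullC (IsLocalRing.ResidueField A) N₂))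
  (hS₂ : IsGaussSetup (M₀ * q * q) N₂ A S₂)
  {Fkz : Type*} [Field Fkz] [Algebra (IsLocalRing.ResidueField A) Fkz]
  (Sz : ValSetup Qb (FBar (M₀ * q * q)) (IsLocalRing.ResidueField A) Fkz)
  {z : Qbˣ} {ε : ↥(modularFunctionFieldBar (M₀ * q * q)) →ₐ[Qb] LaurentSeries Qb}
  (hε : IsMidExp M₀ q z ε) (hSz : ∀ f : FBar (M₀ * q * q), f ∈ Sz.Ov ↔ f ∈ expOv ε A)

section Zero

variable (D₁ D₂ : ALData) (hQ₁ : D₁.Q = q) (hQ : D₂.Q = D₁.Q * q) (hR : D₂.R = D₁.R)
  (hN : M₀ * q = D₁.Q * D₁.R) (hNℓ : M₀ * q * q = D₂.Q * D₂.R)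

include hq hqM hA hS₂ hε hSz hQ₁ hQ hR hN in
/-- **`v_z ⊄ v_0`**. -/
theorem not_le_mid_zeroAt : ¬ Sz.Ov ≤ (valSetupZeroAt D₂ hNℓ S₂).Ov := by
  intro hle
  obtain ⟨S₁, hS₁, -⟩ := exists_isGaussSetup_bad hq hqM A hA (M₀ * q) rfl
    (modFactsAt M₀ q hq hqM A hA)
  have h := not_le_valSetupZeroAt D₁ hq (by norm_num : 0 < 1) (by rw [hQ₁, pow_one]) A hA hN
    S₁ hS₁
  apply h.1
  intro x hx
  have h1 : heckeAlphaBar Qb (M₀ * q) q x ∈ expOv ε A :=
    (ig_alpha_mem_expOv_iff M₀ q hq A hA hε x).mpr ((hS₁.mem_iff x).mp hx)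
  have h2 : heckeAlphaBar Qb (M₀ * q) q x ∈ (valSetupZeroAt D₂ hNℓ S₂).Ov :=
    hle ((hSz _).mpr h1)
  exact (alpha_mem_zeroAt_iff A S₁ S₂ hS₁ hS₂ D₁ D₂ hQ hR hN hNℓ x).mp h2

include hq hqM hA hS₂ hε hSz hQ₁ hQ hR hN in
/-- **`v_0 ⊄ v_z`**. -/
theorem not_le_zeroAt_mid : ¬ (valSetupZeroAt D₂ hNℓ S₂).Ov ≤ Sz.Ov := by
  intro hle
  obtain ⟨S₁, hS₁, -⟩ := exists_isGaussSetup_bad hq hqM A hA (M₀ * q) rfl
    (modFactsAt M₀ q hq hqM A hA)
  have h := not_le_valSetupZeroAt D₁ hq (by norm_num : 0 < 1) (by rw [hQ₁, pow_one]) A hA hN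
    S₁ hS₁
  apply h.2
  intro x hx
  have h2 : heckeAlphaBar Qb (M₀ * q) q x ∈ (valSetupZeroAt D₂ hNℓ S₂).Ov :=
    (alpha_mem_zeroAt_iff A S₁ S₂ hS₁ hS₂ D₁ D₂ hQ hR hN hNℓ x).mpr hx
  have h1 : heckeAlphaBar Qb (M₀ * q) q x ∈ expOv ε A := (hSz _).mp (hle h2)
  exact (hS₁.mem_iff x).mpr ((ig_alpha_mem_expOv_iff M₀ q hq A hA hε x).mp h1)

end Zero

include hq hqM hA hS₂ hε hSz in
/-- **`v_∞ ⊄ v_z`**. -/
theorem not_le_inf_mid (hz : IsPrimitiveRoot z q) : ¬ S₂.Ov ≤ Sz.Ov := by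
  intro hle
  obtain ⟨f, hf1, hf2, hf3, hf4⟩ := igMidNeInf M₀ q hq hqM A hA z ε hz hε
  exact hf4 ((hSz _).mp (hle ((hS₂.mem_iff _).mpr hf2)))

include hq hqM hA hS₂ hε hSz in
/-- **`v_z ⊄ v_∞`**. -/
theorem not_le_mid_inf (hz : IsPrimitiveRoot z q) (hAz : Sz.A = A) : ¬ Sz.Ov ≤ S₂.Ov :=
  not_ov_le_symm S₂ Sz (hS₂.A_eq.trans hAz.symm)
    (not_le_inf_mid hq hqM A hA S₂ hS₂ Sz hε hSz hz)

variable {Fkz' : Type*} [Field Fkz'] [Algebra (IsLocalRing.ResidueField A) Fkz']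
  (Sz' : ValSetup Qb (FBar (M₀ * q * q)) (IsLocalRing.ResidueField A) Fkz')
  {ε' : ↥(modularFunctionFieldBar (M₀ * q * q)) →ₐ[Qb] LaurentSeries Qb}

include hq hqM hA hε hSz in
/-- **`v_z ⊄ v_{z^a}`** for a non-square `a` modulo `q`. -/
theorem not_le_mid_mid (hDist : IgMidDistinct M₀ q) (hz : IsPrimitiveRoot z q) {a : ℕ}
    (ha : ¬ q ∣ a) (hns : ¬ IsSquare (a : ZMod q)) (hε' : IsMidExp M₀ q (z ^ a) ε')
    (hSz' : ∀ f : FBar (M₀ * q * q), f ∈ Sz'.Ov ↔ f ∈ expOv ε' A) (hAz : Sz.A = Sz'.A) :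
    ¬ Sz.Ov ≤ Sz'.Ov := by
  intro hle
  have hge := ov_le_of_ov_le Sz Sz' hAz hle
  apply hns
  apply (hDist hq hqM A hA z a ε ε' hz ha hε hε').mp
  ext f
  rw [← hSz f, ← hSz' f]
  exact ⟨fun h => hle h, fun h => hge h⟩

end Vert

end Fermat.Agent.S36G
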