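/-
G = S36 wave, seat VERT-OO (helper28): **the Gauss constant reduction `v_∞` of the function field
of `X₀(q² R)`, `q ∤ R`, at a place `A` of `ℚ̄` over `q`**, as a `Deuring.ValSetup` with residue
function field `F_k(R) = modularFunctionFieldFullC k R`, with the lattice property.

Route (one extension, purely inseparable residue extension): `F₀ = F_{Rq}`, `F = F_{Rq·q}` as an
`F₀`-algebra through `β = heckeBetaBar` (`x(t) ↦ x(t^q)`), `[F : β F₀] = q` (helper66,
`S36/Norm/VertW.lean`).  The Gauss ring `O` of `F` lies over the Gauss ring `Ov` of `F₀`,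
`θ = j ∈ O` satisfies `θ^q ≡ β(j)` and `j̄` is not a `q`-th power in the residue field of `Ov`; by
the fundamental inequality (T, `Lib/BadRed/FundIneq.lean`, one valuation) every `x ∈ O` is
`≡ ∑_{i<q} β(gᵢ) jⁱ`, `gᵢ ∈ Ov`.  Hence `ρ(x) = ∑ (ρ gᵢ)(t^q) j̄ⁱ ∈ F_k(R)`, as `ρ gᵢ ∈ F_k(R)`
(T, `gaussResFun_mem_fullC_mul`) and `F_k(R)` is stable under `f(t) ↦ f(t^q)` (T, `FrobAut`).

* `linearIndependent_of_resIndep_single`, `residue_pow_single` : abstract (one extension);
* `beta_mem_gaussOv_iff`, `gaussResFun_beta`, `liesOverV_beta` : `O ∩ β F₀ = β Ov`;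
* `exists_residue_pow_beta`, `gaussResFun_mem_fullC_sq` : (R3) at the level `R q q`;
* `gaussSetupSq`, `isGaussSetup_gaussSetupSq`, `hasLattice_gaussSetupSq`,
  `exists_isGaussSetup_sq` : the setup at a level `M = q ^ 2 * R`.
-/
import Mathlib
import Fermat.Agent.S36.Norm.VertW
import Fermat.Agent.Lib.BadRed.Mod.GaussSetupFinal
import Fermat.Agent.Lib.BadRed.Mod.OldRed

set_option autoImplicit false
set_option linter.style.haveILetI false
set_option linter.unusedVariables false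
set_option linter.unusedSectionVars false
set_option synthInstance.maxHeartbeats 400000

noncomputable section
attribute [local instance 10000] SubalgebraClass.toAlgebra HahnSeries.powerSeriesAlgebra

namespace Fermat.Agent.S36G

open ModularCurve HahnSeries AlgebraicCurve Fermat.Agent.GaussInt Fermat.Agent.S24
  Fermat.Agent.Deuring Fermat.Agent.AtkinLehner Fermat.Agent.F3 Fermat.Agent.F3G
  Fermat.Agent.BadRed Fermat.Agent.HeckeComm

local notation "Qb" => AlgebraicClosure ℚ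

/-! ### One extension: the fundamental inequality for a single valuation -/

section Abstract

variable {F₀ F : Type*} [Field F₀] [Field F] [Algebra F₀ F]
  {Ov : ValuationSubring F₀} {O : ValuationSubring F}

/-- a residually independent family is linearly independent. -/
theorem linearIndependent_of_resIndep_single {κ : Type*} [Fintype κ] {x : κ → F}
    (hx : ResIndep Ov O x) : LinearIndependent F₀ x := by
  classical
  rw [Fintype.linearIndependent_iff]
  intro g hg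
  by_contra hcon
  rw [not_forall] at hcon
  obtain ⟨p₁, hp₁⟩ := hcon
  obtain ⟨p₀, -, hmax⟩ := Finset.exists_max_image Finset.univ (fun p => Ov.valuation (g p))
    ⟨p₁, Finset.mem_univ _⟩
  have hp₀ : g p₀ ≠ 0 := by
    intro h0
    have := hmax p₁ (Finset.mem_univ _)
    simp only [h0, map_zero] at this
    exact hp₁ ((map_eq_zero _).mp (le_antisymm this zero_le))
  set a : κ → F₀ := fun p => g p / g p₀ with ha
  have haO : ∀ p, a p ∈ Ov := by
    intro p
    apply (Ov.valuation_le_one_iff _).mp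
    rw [ha, map_div₀]
    exact (div_le_one₀ (zero_lt_iff.mpr (by rwa [Ne, map_eq_zero]))).mpr
      (hmax p (Finset.mem_univ _))
  have ha0 : a p₀ = 1 := div_self hp₀
  have hsum : ∑ p, algebraMap F₀ F (a p) * x p = 0 := by
    have h1 : ∑ p, algebraMap F₀ F (a p) * x p =
        (algebraMap F₀ F (g p₀))⁻¹ * ∑ p, g p • x p := by
      rw [Finset.mul_sum]
      refine Finset.sum_congr rfl fun p _ => ?_
      rw [ha, map_div₀, Algebra.smul_def]
      ring
    rw [h1, hg, mul_zero]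
  have hmem : ∑ p, algebraMap F₀ F (a p) * x p ∈ O.nonunits := by
    rw [hsum, ValuationSubring.mem_nonunits_iff, map_zero]
    exact zero_lt_one
  have := hx.2 a haO hmem p₀
  rw [ha0, ValuationSubring.mem_nonunits_iff, map_one] at this
  exact lt_irrefl _ this

/-- **one extension, `f = ℓ`**: if `[F : F₀] ≤ ℓ`, `θ ^ ℓ ≡ b` and the residue of `b` is not an
`ℓ`-th power, then every `x ∈ O` is congruent to a combination of `1, θ, …, θ ^ (ℓ - 1)` with
coefficients in `Ov`. -/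
theorem residue_pow_single (h : LiesOverV Ov O) {ℓ : ℕ} (hℓ : ℓ.Prime)
    [FiniteDimensional F₀ F] (hrank : Module.finrank F₀ F ≤ ℓ)
    {θ : F} {b : F₀} (hb : b ∈ Ov) (hθ : θ ^ ℓ - algebraMap F₀ F b ∈ O.nonunits)
    (hnp : ∀ u ∈ Ov, u ^ ℓ - b ∉ Ov.nonunits) {x : F} (hx : x ∈ O) :
    ∃ g : Fin ℓ → F₀, (∀ i, g i ∈ Ov) ∧
      x - ∑ i, algebraMap F₀ F (g i) * θ ^ (i : ℕ) ∈ O.nonunits := by
  by_contra hno
  rw [not_exists] at hno
  have hno' : ∀ g : Fin ℓ → F₀, (∀ i, g i ∈ Ov) →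
      x - ∑ i, algebraMap F₀ F (g i) * θ ^ (i : ℕ) ∉ O.nonunits :=
    fun g hg hh => hno g ⟨hg, hh⟩
  have hind := resIndep_snoc h (resIndep_pow h hℓ hb hθ hnp) hx hno'
  have := (linearIndependent_of_resIndep_single hind).fintype_card_le_finrank
  rw [Fintype.card_fin] at this
  omega

end Abstract

/-! ### The Gauss ring along `β` -/

section Beta

variable {M ℓ : ℕ} [NeZero M] [NeZero ℓ] (hℓ : ℓ.Prime)
  (A : ValuationSubring Qb) (hA : A.LiesOverPrime ℓ)

theorem qExpand_mem_bar_mul (x : LaurentSeries Qb) (hx : x ∈ modularFunctionFieldBar M) :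
    qExpand Qb ℓ x ∈ modularFunctionFieldBar (M * ℓ) :=
  (heckeBetaBar Qb M ℓ ⟨x, hx⟩).2

/-- `ρ (β x) = (ρ x)(t ^ ℓ)`. -/
theorem gaussResFun_beta {x : ↥(modularFunctionFieldBar M)} (hx : x ∈ gaussOv M hℓ A hA) :
    gaussResFun A (modularFunctionFieldBar (M * ℓ))
        ((heckeBetaBar Qb M ℓ x : ↥(modularFunctionFieldBar (M * ℓ))) : LaurentSeries Qb) =
      qExpand (IsLocalRing.ResidueField A) ℓ
        (gaussResFun A (modularFunctionFieldBar M) (x : LaurentSeries Qb)) := by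
  rw [coe_heckeBetaBar]
  exact gaussResFun_qExpand ℓ (fun y hy => qExpand_mem_bar_mul y hy) hx

/-- `O ∩ β F₀ = β Ov`. -/
theorem beta_mem_gaussOv_iff (x : ↥(modularFunctionFieldBar M)) :
    heckeBetaBar Qb M ℓ x ∈ gaussOv (M * ℓ) hℓ A hA ↔ x ∈ gaussOv M hℓ A hA := by
  constructor
  · intro h
    by_contra hx
    have hx0 : x ≠ 0 := fun h0 => hx (h0 ▸ (gaussOv M hℓ A hA).zero_mem)
    have hinv : x⁻¹ ∈ gaussOv M hℓ A hA :=
      ((gaussOv M hℓ A hA).mem_or_inv_mem x).resolve_left hx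
    have hres : gaussResFun A (modularFunctionFieldBar M)
        ((x⁻¹ : ↥(modularFunctionFieldBar M)) : LaurentSeries Qb) = 0 := by
      by_contra hne
      apply hx
      have := inv_mem_gaussSub (F := modularFunctionFieldBar M) hinv hne
      show (x : LaurentSeries Qb) ∈ gaussSub A (modularFunctionFieldBar M)
      have e : (((x⁻¹ : ↥(modularFunctionFieldBar M)) : LaurentSeries Qb))⁻¹ =
          (x : LaurentSeries Qb) := by
        rw [← IntermediateField.coe_inv, inv_inv]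
      rwa [e] at this
    have h1 : ((heckeBetaBar Qb M ℓ x : ↥(modularFunctionFieldBar (M * ℓ))) :
        LaurentSeries Qb) ∈ gaussSub A (modularFunctionFieldBar (M * ℓ)) := h
    have h2 : ((heckeBetaBar Qb M ℓ x⁻¹ : ↥(modularFunctionFieldBar (M * ℓ))) :
        LaurentSeries Qb) ∈ gaussSub A (modularFunctionFieldBar (M * ℓ)) := by
      rw [coe_heckeBetaBar]
      exact qExpand_mem_gaussSub ℓ (fun y hy => qExpand_mem_bar_mul y hy) hinv
    have hmul : gaussRes A (modularFunctionFieldBar (M * ℓ)) (⟨_, h1⟩ * ⟨_, h2⟩) = 1 := by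
      have : (⟨_, h1⟩ * ⟨_, h2⟩ : gaussSub A (modularFunctionFieldBar (M * ℓ))) = 1 := by
        apply Subtype.ext
        show ((heckeBetaBar Qb M ℓ x : ↥(modularFunctionFieldBar (M * ℓ))) : LaurentSeries Qb) *
          ((heckeBetaBar Qb M ℓ x⁻¹ : ↥(modularFunctionFieldBar (M * ℓ))) : LaurentSeries Qb) = 1
        rw [← MulMemClass.coe_mul, ← map_mul, mul_inv_cancel₀ hx0, map_one]
        rfl
      rw [this, map_one]
    rw [map_mul] at hmul
    have h3 : gaussRes A (modularFunctionFieldBar (M * ℓ)) ⟨_, h2⟩ = 0 := by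
      rw [gaussRes_apply]
      show gaussResFun A (modularFunctionFieldBar (M * ℓ))
        ((heckeBetaBar Qb M ℓ x⁻¹ : ↥(modularFunctionFieldBar (M * ℓ))) : LaurentSeries Qb) = 0
      rw [gaussResFun_beta hℓ A hA hinv, hres, map_zero]
    rw [h3, mul_zero] at hmul
    exact zero_ne_one hmul
  · intro h
    show ((heckeBetaBar Qb M ℓ x : ↥(modularFunctionFieldBar (M * ℓ))) : LaurentSeries Qb) ∈
      gaussSub A (modularFunctionFieldBar (M * ℓ))
    rw [coe_heckeBetaBar]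
    exact qExpand_mem_gaussSub ℓ (fun y hy => qExpand_mem_bar_mul y hy) h

/-- `F_{Mℓ}` as an algebra over `F_M` through `β`. -/
@[reducible] def algBeta (M ℓ : ℕ) [NeZero M] [NeZero ℓ] :
    Algebra ↥(modularFunctionFieldBar M) ↥(modularFunctionFieldBar (M * ℓ)) :=
  algebraAlong (heckeBetaBar Qb M ℓ)

/-- the Gauss ring of `F_{Mℓ}` lies over the Gauss ring of `F_M` along `β`. -/
theorem liesOverV_beta :
    @LiesOverV _ _ _ _ (algBeta M ℓ) (gaussOv M hℓ A hA) (gaussOv (M * ℓ) hℓ A hA) := by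
  letI := algBeta M ℓ
  unfold LiesOverV
  apply SetLike.ext
  intro x
  rw [ValuationSubring.mem_comap]
  exact beta_mem_gaussOv_iff hℓ A hA x

/-- `j ^ ℓ - β j ∈ m`. -/
theorem pow_sub_beta_mem_nonunits :
    heckeAlphaBar Qb M ℓ (jBar M) ^ ℓ - heckeBetaBar Qb M ℓ (jBar M) ∈
      (gaussOv (M * ℓ) hℓ A hA).nonunits := by
  have h := theta_sub_pow_mem_nonunits (N := M) hℓ A hA
  rw [ValuationSubring.mem_nonunits_iff] at h ⊢
  have e : heckeAlphaBar Qb M ℓ (jBar M) ^ ℓ - heckeBetaBar Qb M ℓ (jBar M) =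
      -(heckeBetaBar Qb M ℓ (jBar M) - heckeAlphaBar Qb M ℓ (jBar M ^ ℓ)) := by
    rw [map_pow]
    ring
  rw [e, Valuation.map_neg]
  exact h

end Beta

/-! ### (R3) at the level `N ℓ ℓ` -/

section Level

variable {N ℓ : ℕ} [NeZero N] [NeZero ℓ] (hℓ : ℓ.Prime) (hℓN : ¬ ℓ ∣ N)
  (A : ValuationSubring Qb) (hA : A.LiesOverPrime ℓ)

include hℓN in
/-- **`f = ℓ`, purely inseparable**: every element of the Gauss ring of `F_{Nℓℓ}` is congruent to
`∑_{i<ℓ} β(gᵢ) jⁱ` with `gᵢ` in the Gauss ring of `F_{Nℓ}`. -/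
theorem exists_residue_pow_beta {x : ↥(modularFunctionFieldBar (N * ℓ * ℓ))}
    (hx : x ∈ gaussOv (N * ℓ * ℓ) hℓ A hA) :
    ∃ g : Fin ℓ → ↥(modularFunctionFieldBar (N * ℓ)), (∀ i, g i ∈ gaussOv (N * ℓ) hℓ A hA) ∧
      x - ∑ i, heckeBetaBar Qb (N * ℓ) ℓ (g i) *
          heckeAlphaBar Qb (N * ℓ) ℓ (jBar (N * ℓ)) ^ (i : ℕ) ∈
        (gaussOv (N * ℓ * ℓ) hℓ A hA).nonunits := by
  letI : Algebra ↥(modularFunctionFieldBar (N * ℓ)) ↥(modularFunctionFieldBar (N * ℓ * ℓ)) :=
    algBeta (N * ℓ) ℓ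
  have hNpos : 0 < N := Nat.pos_of_ne_zero (NeZero.ne N)
  have hcop : Nat.Coprime ℓ N := (Nat.Prime.coprime_iff_not_dvd hℓ).mpr hℓN
  obtain ⟨D₁, h1Q, h1R⟩ := ALData.exists_of_coprime hℓ.pos hNpos hcop
  obtain ⟨D₂, h2Q, h2R⟩ := ALData.exists_of_coprime (Nat.mul_pos hℓ.pos hℓ.pos) hNpos
    (Nat.Coprime.mul_left hcop hcop)
  obtain ⟨hfd, hrank⟩ := Fermat.Agent.S36N.finrank_beta (N := N * ℓ) hℓ (dvd_mul_left ℓ N)
    D₁ D₂ (by rw [h2Q, h1Q]) (by rw [h2R, h1R]) (by rw [h1Q, h1R, mul_comm])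
    (by rw [h2Q, h2R]; ring)
  haveI : FiniteDimensional ↥(modularFunctionFieldBar (N * ℓ))
    ↥(modularFunctionFieldBar (N * ℓ * ℓ)) := hfd
  exact residue_pow_single (liesOverV_beta hℓ A hA) hℓ hrank.le
    (jBar_mem_gaussOvS (N * ℓ) hℓ A hA) (pow_sub_beta_mem_nonunits hℓ A hA)
    (pow_sub_j_not_mem_nonunits hℓ A hA) hx

include hℓ hA in
/-- the residue of `j`. -/
theorem gaussResFun_alpha_jBar (M : ℕ) [NeZero M] :
    gaussResFun A (modularFunctionFieldBar (M * ℓ))
        ((heckeAlphaBar Qb M ℓ (jBar M) : ↥(modularFunctionFieldBar (M * ℓ))) :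
          LaurentSeries Qb) = jqModC (IsLocalRing.ResidueField A) := by
  rw [gaussResFun_alpha hℓ A hA (jBar_mem_gaussOvS M hℓ A hA)]
  exact gaussOvRes_jBar M hℓ A hA

set_option maxHeartbeats 1000000 in
include hℓ hℓN hA in
/-- **(R3) at the level `N ℓ ℓ`**: the residues of the Gauss ring of `F_{Nℓℓ}` lie in
`F_k(N)`. -/
theorem gaussResFun_mem_fullC_sq :
    ∀ f ∈ gaussSub A (modularFunctionFieldBar (N * ℓ * ℓ)),
      gaussResFun A (modularFunctionFieldBar (N * ℓ * ℓ)) f ∈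
        modularFunctionFieldFullC (IsLocalRing.ResidueField A) N := by
  intro f hf
  haveI : Fact ℓ.Prime := ⟨hℓ⟩
  haveI : CharP (IsLocalRing.ResidueField A) ℓ :=
    Fermat.Agent.Kronecker.charP_residueField_of_liesOverPrime A ℓ hℓ hA
  haveI : IsAlgClosed (IsLocalRing.ResidueField A) := isAlgClosed_residue A
  have hfF : f ∈ modularFunctionFieldBar (N * ℓ * ℓ) := mem_of_mem_gaussSub hf
  obtain ⟨g, hg, hgx⟩ := exists_residue_pow_beta hℓ hℓN A hA
    (x := (⟨f, hfF⟩ : ↥(modularFunctionFieldBar (N * ℓ * ℓ)))) hf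
  have h0 := gaussResFun_eq_zero_of_mem_nonunits hℓ A hA (N * ℓ * ℓ) hgx
  have hβ : ∀ i, ((heckeBetaBar Qb (N * ℓ) ℓ (g i) : ↥(modularFunctionFieldBar (N * ℓ * ℓ))) :
      LaurentSeries Qb) ∈ gaussSub A (modularFunctionFieldBar (N * ℓ * ℓ)) :=
    fun i => (beta_mem_gaussOv_iff hℓ A hA (g i)).mpr (hg i)
  have hθ : ((heckeAlphaBar Qb (N * ℓ) ℓ (jBar (N * ℓ)) :
      ↥(modularFunctionFieldBar (N * ℓ * ℓ))) : LaurentSeries Qb) ∈
      gaussSub A (modularFunctionFieldBar (N * ℓ * ℓ)) :=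
    (alpha_mem_gaussOv_iff hℓ A hA _).mpr (jBar_mem_gaussOvS (N * ℓ) hℓ A hA)
  set S : gaussSub A (modularFunctionFieldBar (N * ℓ * ℓ)) :=
    ∑ i, (⟨_, hβ i⟩ : gaussSub A (modularFunctionFieldBar (N * ℓ * ℓ))) *
      (⟨_, hθ⟩ : gaussSub A (modularFunctionFieldBar (N * ℓ * ℓ))) ^ (i : ℕ) with hS
  have hScoe : (S : LaurentSeries Qb) =
      ((∑ i, heckeBetaBar Qb (N * ℓ) ℓ (g i) *
        heckeAlphaBar Qb (N * ℓ) ℓ (jBar (N * ℓ)) ^ (i : ℕ) :
        ↥(modularFunctionFieldBar (N * ℓ * ℓ))) : LaurentSeries Qb) := by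
    rw [hS, AddSubmonoidClass.coe_finsetSum, AddSubmonoidClass.coe_finsetSum]
    refine Finset.sum_congr rfl fun i _ => ?_
    rfl
  have hcoe : (((⟨f, hfF⟩ : ↥(modularFunctionFieldBar (N * ℓ * ℓ))) -
      ∑ i, heckeBetaBar Qb (N * ℓ) ℓ (g i) *
        heckeAlphaBar Qb (N * ℓ) ℓ (jBar (N * ℓ)) ^ (i : ℕ) :
      ↥(modularFunctionFieldBar (N * ℓ * ℓ))) : LaurentSeries Qb) =
      f - (S : LaurentSeries Qb) := by
    rw [AddSubgroupClass.coe_sub, hScoe]
  rw [hcoe] at h0
  have hsub : gaussResFun A (modularFunctionFieldBar (N * ℓ * ℓ)) (f - (S : LaurentSeries Qb)) =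
      gaussResFun A (modularFunctionFieldBar (N * ℓ * ℓ)) f -
        gaussResFun A (modularFunctionFieldBar (N * ℓ * ℓ)) (S : LaurentSeries Qb) :=
    map_sub (gaussRes A (modularFunctionFieldBar (N * ℓ * ℓ))) ⟨f, hf⟩ S
  rw [hsub, sub_eq_zero] at h0
  rw [h0]
  have hS' : gaussResFun A (modularFunctionFieldBar (N * ℓ * ℓ)) (S : LaurentSeries Qb) =
      ∑ i, qExpand (IsLocalRing.ResidueField A) ℓ
          (gaussResFun A (modularFunctionFieldBar (N * ℓ)) ((g i : ↥(modularFunctionFieldBar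
            (N * ℓ))) : LaurentSeries Qb)) *
        jqModC (IsLocalRing.ResidueField A) ^ (i : ℕ) := by
    show gaussRes A (modularFunctionFieldBar (N * ℓ * ℓ)) S = _
    rw [hS, map_sum]
    refine Finset.sum_congr rfl fun i _ => ?_
    rw [map_mul, map_pow, gaussRes_apply, gaussRes_apply]
    show gaussResFun A (modularFunctionFieldBar (N * ℓ * ℓ))
        ((heckeBetaBar Qb (N * ℓ) ℓ (g i) : ↥(modularFunctionFieldBar (N * ℓ * ℓ))) :
          LaurentSeries Qb) *
      gaussResFun A (modularFunctionFieldBar (N * ℓ * ℓ))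
        ((heckeAlphaBar Qb (N * ℓ) ℓ (jBar (N * ℓ)) : ↥(modularFunctionFieldBar (N * ℓ * ℓ))) :
          LaurentSeries Qb) ^ (i : ℕ) = _
    rw [gaussResFun_beta hℓ A hA (hg i), gaussResFun_alpha_jBar hℓ A hA (N * ℓ)]
  rw [hS']
  refine sum_mem fun i _ => mul_mem ?_ (pow_mem (jqModC_mem_full _ _) _)
  exact qExpand_mem_fullC (IsLocalRing.ResidueField A) N ℓ
    (gaussResFun_mem_fullC_mul hℓ hℓN A hA (modFactsAt N ℓ hℓ hℓN A hA) _ (hg i))

end Level

/-! ### The setup at a level `M = ℓ ^ 2 * N` -/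

section Setup

variable {N ℓ : ℕ} [NeZero N] [NeZero ℓ] (hℓ : ℓ.Prime) (hℓN : ¬ ℓ ∣ N)
  (A : ValuationSubring Qb) (hA : A.LiesOverPrime ℓ)
  (M : ℕ) [NeZero M] (hM : M = ℓ ^ 2 * N)

include hℓ hℓN hA hM in
/-- **(R3) at the level `M = ℓ² N`.** -/
theorem gaussResFun_mem_fullC_sqLevel :
    ∀ f ∈ gaussSub A (modularFunctionFieldBar M),
      gaussResFun A (modularFunctionFieldBar M) f ∈
        modularFunctionFieldFullC (IsLocalRing.ResidueField A) N := by
  have e : M = N * ℓ * ℓ := by rw [hM]; ring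
  subst e
  exact gaussResFun_mem_fullC_sq hℓ hℓN A hA

include hM in
/-- every element of `F_k(N)` is a residue of the Gauss ring of `F_M`. -/
theorem exists_gaussResFun_eq_sqLevel :
    ∀ y ∈ modularFunctionFieldFullC (IsLocalRing.ResidueField A) N,
      ∃ f ∈ gaussSub A (modularFunctionFieldBar M),
        gaussResFun A (modularFunctionFieldBar M) f = y := by
  intro y hy
  obtain ⟨f, hf, hfy⟩ := Fermat.Agent.GaussVal.exists_gaussResFun_eq_of_mem A N y hy
  have hle : modularFunctionFieldBar N ≤ modularFunctionFieldBar M :=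
    fbar_le (hM ▸ Dvd.intro_left (ℓ ^ 2) rfl)
  exact ⟨f, gaussSub_mono_field hle hf, by rw [gaussResFun_eq_of_le hle hf, hfy]⟩

/-- **The Gauss valuation `v_∞` of `F_M`, `M = ℓ² N`, `ℓ ∤ N`, at a place over `ℓ`** as a constant
reduction in the sense of `Deuring.ValSetup`, with residue function field `F_k(N)`. -/
def gaussSetupSq :
    ValSetup Qb (FBar M) (IsLocalRing.ResidueField A)
      (modularFunctionFieldFullC (IsLocalRing.ResidueField A) N) :=
  haveI := isAlgClosed_residue A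
  gaussValSetup (gaussHyp_modular M hℓ hA)
    (modularFunctionFieldFullC (IsLocalRing.ResidueField A) N)
    (gaussResFun_mem_fullC_sqLevel hℓ hℓN A hA M hM)
    (exists_gaussResFun_eq_sqLevel A M hM)
    (Fermat.Agent.RRMod.isRRField_bar M)
    (Fermat.Agent.RRMod.isRRField_fullC' (IsLocalRing.ResidueField A) N)

@[simp] theorem gaussSetupSq_A : (gaussSetupSq hℓ hℓN A hA M hM).A = A := rfl

@[simp] theorem gaussSetupSq_Ov :
    (gaussSetupSq hℓ hℓN A hA M hM).Ov = gaussValSub (gaussHyp_modular M hℓ hA) := rfl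

theorem mem_gaussSetupSq_Ov_iff (f : FBar M) :
    f ∈ (gaussSetupSq hℓ hℓN A hA M hM).Ov ↔
      (f : LaurentSeries Qb) ∈ gaussSub A (modularFunctionFieldBar M) :=
  Iff.rfl

theorem coe_gaussSetupSq_red {f : FBar M}
    (hf : (f : LaurentSeries Qb) ∈ gaussSub A (modularFunctionFieldBar M)) :
    (((gaussSetupSq hℓ hℓN A hA M hM).red f :
        modularFunctionFieldFullC (IsLocalRing.ResidueField A) N) :
        LaurentSeries (IsLocalRing.ResidueField A)) =
      gaussResFun A (modularFunctionFieldBar M) (f : LaurentSeries Qb) :=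
  haveI := isAlgClosed_residue A
  coe_gaussValSetup_red (gaussHyp_modular M hℓ hA) _ _ _ _ _ hf

/-- `gaussSetupSq` is the Gauss setup of `F_M`, `M = ℓ² N`, with residue function field
`F_k(N)`. -/
theorem isGaussSetup_gaussSetupSq :
    IsGaussSetup M N A (gaussSetupSq hℓ hℓN A hA M hM) where
  A_eq := rfl
  res_eq := fun _ _ _ => rfl
  mem_iff := fun _ => Iff.rfl
  coe_red := fun _ hf => coe_gaussSetupSq_red hℓ hℓN A hA M hM hf

/-- **LATTICE property of `v_∞` at the level `ℓ² N`** (orthonormal bases). -/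
theorem hasLattice_gaussSetupSq : HasLattice (gaussSetupSq hℓ hℓN A hA M hM) :=
  haveI := isAlgClosed_residue A
  hasLattice_gaussValSetup (gaussHyp_modular M hℓ hA) _ _ _ _ _

include hℓ hℓN hA hM in
/-- **VERT-OO**: the Gauss setup `v_∞` at the level `M = ℓ² N`, `ℓ ∤ N`, with the lattice
property. -/
theorem exists_isGaussSetup_sq :
    ∃ S : ValSetup Qb (FBar M) (IsLocalRing.ResidueField A)
        (modularFunctionFieldFullC (IsLocalRing.ResidueField A) N),
      IsGaussSetup M N A S ∧ HasLattice S :=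
  ⟨gaussSetupSq hℓ hℓN A hA M hM, isGaussSetup_gaussSetupSq hℓ hℓN A hA M hM,
    hasLattice_gaussSetupSq hℓ hℓN A hA M hM⟩

end Setup

end Fermat.Agent.S36G
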